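/-
S25 package TWIST, leaf G6, piece 3 (helper7525): calculus of ideal data `ofIdeals 𝔹 a₁ a₂ h`.

* `nonempty_iso_of_bijective` : a morphism of glued modules which is bijective on both charts is
  an isomorphism;
* `ofIdeals_iso_of_eq`, `ofIdeals_top_iso_unit`;
* `tensor_ofIdeals_iso` : `ofIdeals a ⊗ ofIdeals b ≅ ofIdeals (a * b)` if the `b_i` are flat.
-/
import Fermat.Agent.S25.TWIST.Defs

set_option autoImplicit false

universe u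

namespace Fermat.Agent.S25.TWIST.G6.H7525

open Fermat.Agent.S25 GluedModule Ten

open scoped TensorProduct

section

variable {R : Type u} [CommRing R] {𝔹 : TwoChart R}

theorem fpow_gpow_smul (N : GluedModule 𝔹) (m : ℕ) (z : N.N₁₂) :
    𝔹.r₁ 𝔹.f ^ m • 𝔹.r₂ 𝔹.g ^ m • z = z := by
  rw [smul_smul, ← mul_pow, 𝔹.fg, one_pow, one_smul]

theorem gpow_fpow_smul (N : GluedModule 𝔹) (m : ℕ) (z : N.N₁₂) :
    𝔹.r₂ 𝔹.g ^ m • 𝔹.r₁ 𝔹.f ^ m • z = z := by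
  rw [smul_smul, ← mul_pow, 𝔹.gf, one_pow, one_smul]

/-- A morphism of glued modules whose first chart map is bijective is bijective on the
overlap. -/
theorem bijective_φ₁₂_of_bijective_φ₁ {N N' : GluedModule 𝔹} (φ : GluedModule.Hom N N')
    (h₁ : Function.Bijective φ.φ₁) : Function.Bijective φ.φ₁₂ := by
  constructor
  · rw [injective_iff_map_eq_zero]
    intro y hy
    obtain ⟨n, m, rfl⟩ := N.surj₁ y
    rw [map_smul, φ.comm₁] at hy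
    have h0 : N'.ι₁ (φ.φ₁ n) = 0 := by
      rw [← fpow_gpow_smul N' m (N'.ι₁ (φ.φ₁ n)), hy, smul_zero]
    obtain ⟨j, hj⟩ := N'.ker₁ _ h0
    have h1 : 𝔹.f ^ j • n = 0 := by
      apply h₁.1
      rw [map_smul, hj, map_zero]
    have h2 : N.ι₁ n = 0 := by
      have := congrArg N.ι₁ h1
      rw [N.ι₁_smul, map_zero, map_pow] at this
      rw [← gpow_fpow_smul N j (N.ι₁ n), this, smul_zero]
    rw [h2, smul_zero]
  · intro y
    obtain ⟨n', m, rfl⟩ := N'.surj₁ y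
    obtain ⟨n, rfl⟩ := h₁.2 n'
    exact ⟨𝔹.r₂ 𝔹.g ^ m • N.ι₁ n, by rw [map_smul, φ.comm₁]⟩

/-- A morphism of glued modules which is bijective on both charts is an isomorphism. -/
theorem nonempty_iso_of_bijective {N N' : GluedModule 𝔹} (φ : GluedModule.Hom N N')
    (h₁ : Function.Bijective φ.φ₁) (h₂ : Function.Bijective φ.φ₂) : Nonempty (Iso N N') :=
  ⟨{ e₁ := LinearEquiv.ofBijective φ.φ₁ h₁
     e₂ := LinearEquiv.ofBijective φ.φ₂ h₂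
     e₁₂ := LinearEquiv.ofBijective φ.φ₁₂ (bijective_φ₁₂_of_bijective_φ₁ φ h₁)
     comm₁ := φ.comm₁
     comm₂ := φ.comm₂ }⟩

theorem ofIdeals_iso_of_eq {a₁ a₁' : Ideal 𝔹.B₁} {a₂ a₂' : Ideal 𝔹.B₂}
    (h : a₁.map 𝔹.r₁.toRingHom = a₂.map 𝔹.r₂.toRingHom)
    (h' : a₁'.map 𝔹.r₁.toRingHom = a₂'.map 𝔹.r₂.toRingHom) (e₁ : a₁ = a₁') (e₂ : a₂ = a₂') :
    Nonempty (Iso (ofIdeals 𝔹 a₁ a₂ h) (ofIdeals 𝔹 a₁' a₂' h')) := by
  subst e₁
  subst e₂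
  exact ⟨Iso.refl _⟩

/-- The inclusion of an ideal datum into the structure sheaf. -/
def ofIdealsIncl (a₁ : Ideal 𝔹.B₁) (a₂ : Ideal 𝔹.B₂)
    (h : a₁.map 𝔹.r₁.toRingHom = a₂.map 𝔹.r₂.toRingHom) :
    GluedModule.Hom (ofIdeals 𝔹 a₁ a₂ h) (GluedModule.unit 𝔹) where
  φ₁ := Submodule.subtype a₁
  φ₂ := Submodule.subtype a₂
  φ₁₂ := Submodule.subtype (a₁.map 𝔹.r₁.toRingHom)
  comm₁ := fun _ => rfl
  comm₂ := fun _ => rfl

theorem ofIdeals_top_iso_unit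
    (h : (⊤ : Ideal 𝔹.B₁).map 𝔹.r₁.toRingHom = (⊤ : Ideal 𝔹.B₂).map 𝔹.r₂.toRingHom) :
    Nonempty (Iso (ofIdeals 𝔹 ⊤ ⊤ h) (GluedModule.unit 𝔹)) :=
  nonempty_iso_of_bijective (ofIdealsIncl ⊤ ⊤ h)
    ⟨Subtype.val_injective, fun b => ⟨⟨b, Submodule.mem_top⟩, rfl⟩⟩
    ⟨Subtype.val_injective, fun b => ⟨⟨b, Submodule.mem_top⟩, rfl⟩⟩

end

section Mul

variable {R : Type u} [CommRing R] {𝔹 : TwoChart R}
  (a₁ b₁ : Ideal 𝔹.B₁) (a₂ b₂ : Ideal 𝔹.B₂)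
  (ha : a₁.map 𝔹.r₁.toRingHom = a₂.map 𝔹.r₂.toRingHom)
  (hb : b₁.map 𝔹.r₁.toRingHom = b₂.map 𝔹.r₂.toRingHom)

include ha hb in
theorem map_mul_eq :
    (a₁ * b₁).map 𝔹.r₁.toRingHom = (a₂ * b₂).map 𝔹.r₂.toRingHom := by
  rw [Ideal.map_mul, Ideal.map_mul, ha, hb]

/-- The multiplication map `a₁₂ ⊗ b₁₂ → (a₁ b₁) B₁₂`. -/
noncomputable def mulMap₁₂ :
    (a₁.map 𝔹.r₁.toRingHom : Ideal 𝔹.B₁₂) ⊗[𝔹.B₁₂] (b₁.map 𝔹.r₁.toRingHom : Ideal 𝔹.B₁₂)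
      →ₗ[𝔹.B₁₂] ((a₁ * b₁).map 𝔹.r₁.toRingHom : Ideal 𝔹.B₁₂) :=
  LinearMap.codRestrict _ (Submodule.mulMap (a₁.map 𝔹.r₁.toRingHom) (b₁.map 𝔹.r₁.toRingHom))
    (fun t => by
      induction t using TensorProduct.induction_on with
      | zero =>
        rw [map_zero]
        exact Submodule.zero_mem _
      | tmul x y =>
        rw [Submodule.mulMap_tmul, Ideal.map_mul]
        exact Ideal.mul_mem_mul x.2 y.2
      | add x y hx hy =>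
        rw [map_add]
        exact Submodule.add_mem _ hx hy)

theorem mulMap₁₂_tmul (x : (a₁.map 𝔹.r₁.toRingHom : Ideal 𝔹.B₁₂))
    (y : (b₁.map 𝔹.r₁.toRingHom : Ideal 𝔹.B₁₂)) :
    (mulMap₁₂ a₁ b₁ (x ⊗ₜ[𝔹.B₁₂] y) : 𝔹.B₁₂) = x.1 * y.1 := rfl

variable [Module.Flat 𝔹.B₁ b₁] [Module.Flat 𝔹.B₂ b₂]

set_option backward.isDefEq.respectTransparency false in
/-- The multiplication morphism `ofIdeals a ⊗ ofIdeals b → ofIdeals (a * b)`. -/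
noncomputable def tensorOfIdealsHom :
    GluedModule.Hom (tensor (ofIdeals 𝔹 a₁ a₂ ha) (ofIdeals 𝔹 b₁ b₂ hb))
      (ofIdeals 𝔹 (a₁ * b₁) (a₂ * b₂) (map_mul_eq a₁ b₁ a₂ b₂ ha hb)) where
  φ₁ := (Submodule.LinearDisjoint.of_left_le_one_of_flat (M := a₁) (N := b₁)
    (le_top.trans Ideal.one_eq_top.ge)).mulMap.toLinearMap
  φ₂ := (Submodule.LinearDisjoint.of_left_le_one_of_flat (M := a₂) (N := b₂)
    (le_top.trans Ideal.one_eq_top.ge)).mulMap.toLinearMap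
  φ₁₂ := mulMap₁₂ a₁ b₁
  comm₁ := fun t => by
    induction t using TensorProduct.induction_on with
    | zero => rw [map_zero, map_zero, map_zero, map_zero]
    | tmul x y => exact Subtype.ext (map_mul 𝔹.r₁ x.1 y.1).symm
    | add x y hx hy => rw [map_add, map_add, map_add, map_add, hx, hy]
  comm₂ := fun t => by
    induction t using TensorProduct.induction_on with
    | zero => rw [map_zero, map_zero, map_zero, map_zero]
    | tmul x y => exact Subtype.ext (map_mul 𝔹.r₂ x.1 y.1).symm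
    | add x y hx hy => rw [map_add, map_add, map_add, map_add, hx, hy]

/-- `ofIdeals a ⊗ ofIdeals b ≅ ofIdeals (a * b)` when the `b_i` are flat. -/
theorem tensor_ofIdeals_iso :
    Nonempty (Iso (tensor (ofIdeals 𝔹 a₁ a₂ ha) (ofIdeals 𝔹 b₁ b₂ hb))
      (ofIdeals 𝔹 (a₁ * b₁) (a₂ * b₂) (map_mul_eq a₁ b₁ a₂ b₂ ha hb))) :=
  nonempty_iso_of_bijective (tensorOfIdealsHom a₁ b₁ a₂ b₂ ha hb)
    (LinearEquiv.bijective _) (LinearEquiv.bijective _)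

end Mul

end Fermat.Agent.S25.TWIST.G6.H7525
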