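/-
S25 package TWIST, leaf G6, piece 4 (helper7525): the dual of a line bundle with a nonzero section
is an ideal datum.  For a line bundle `N` on a two-chart with domain chart rings and a global
section `s = (s₁, s₂)` with `s₁ ≠ 0`, `s₂ ≠ 0`, evaluation at `s` identifies `lbDual N` with
`ofIdeals a₁ a₂`, `a_i = {λ(s_i) | λ ∈ N_i^∨}` (order ideals), and `a_i ≠ ⊥`.
-/
import Fermat.Agent.S25.TWIST.G6.H7525.IdealTensor

set_option autoImplicit false

universe u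

namespace Fermat.Agent.S25.TWIST.G6.H7525

open Fermat.Agent.S25 GluedModule Ten

open scoped TensorProduct

/-! ### Invertible modules: the rank-one identity -/

section Invertible

variable {B : Type*} [CommRing B] {M : Type*} [AddCommGroup M] [Module B M]

/-- Partition of unity of an invertible module. -/
theorem inv_exists_partition [Module.Invertible B M] :
    ∃ S : Finset (Module.Dual B M × M), ∑ p ∈ S, p.1 p.2 = 1 := by
  obtain ⟨t, ht⟩ := (Module.Invertible.bijective (R := B) (M := M)).2 1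
  obtain ⟨S, rfl⟩ := TensorProduct.exists_finset t
  refine ⟨S, ?_⟩
  rw [map_sum] at ht
  simpa [contractLeft_apply] using ht

/-- The rank-one identity in an invertible module. -/
theorem inv_rank_one [Module.Invertible B M] (l : Module.Dual B M) (x y : M) :
    l x • y = l y • x := by
  have h := congrArg (TensorProduct.lift ((LinearMap.lsmul B M).comp l))
    (Module.Invertible.tmul_comm (R := B) (m₁ := x) (m₂ := y))
  simpa using h

/-- Dual basis expansion in an invertible module. -/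
theorem inv_expand [Module.Invertible B M] {S : Finset (Module.Dual B M × M)}
    (hS : ∑ p ∈ S, p.1 p.2 = 1) (z : M) : ∑ p ∈ S, p.1 z • p.2 = z := by
  calc ∑ p ∈ S, p.1 z • p.2 = ∑ p ∈ S, p.1 p.2 • z :=
        Finset.sum_congr rfl fun p _ => inv_rank_one p.1 z p.2
    _ = (∑ p ∈ S, p.1 p.2) • z := (Finset.sum_smul).symm
    _ = z := by rw [hS, one_smul]

/-- A nonzero element of an invertible module is not killed by all functionals. -/
theorem exists_dual_apply_ne_zero [Module.Invertible B M] {s : M} (hs : s ≠ 0) :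
    ∃ l : Module.Dual B M, l s ≠ 0 := by
  by_contra hcon
  push Not at hcon
  obtain ⟨S, hS⟩ := inv_exists_partition (B := B) (M := M)
  apply hs
  rw [← inv_expand hS s]
  exact Finset.sum_eq_zero fun p _ => by rw [hcon p.1, zero_smul]

/-- Over a domain, evaluation at a nonzero element of an invertible module is injective on the
dual. -/
theorem dual_apply_injective [IsDomain B] [Module.Invertible B M] {s : M} (hs : s ≠ 0) :
    Function.Injective (LinearMap.applyₗ (R := B) (M₂ := B) s) := by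
  rw [injective_iff_map_eq_zero]
  intro l hl
  ext n
  have h := inv_rank_one l n s
  rw [show l s = 0 from hl, zero_smul] at h
  exact (smul_eq_zero_iff_left hs).mp h

end Invertible

/-! ### Order ideals of a section -/

section Embed

variable {R : Type u} [CommRing R] {𝔹 : TwoChart R} (N : GluedModule 𝔹)

/-- The order ideal of an element of the first chart module. -/
def ordIdeal₁ (s₁ : N.N₁) : Ideal 𝔹.B₁ :=
  LinearMap.range (LinearMap.applyₗ (R := 𝔹.B₁) (M₂ := 𝔹.B₁) s₁)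

/-- The order ideal of an element of the second chart module. -/
def ordIdeal₂ (s₂ : N.N₂) : Ideal 𝔹.B₂ :=
  LinearMap.range (LinearMap.applyₗ (R := 𝔹.B₂) (M₂ := 𝔹.B₂) s₂)

/-- The order ideal of an element of the overlap module. -/
def ordIdeal₁₂ (y : N.N₁₂) : Ideal 𝔹.B₁₂ :=
  LinearMap.range (LinearMap.applyₗ (R := 𝔹.B₁₂) (M₂ := 𝔹.B₁₂) y)

variable (hN : N.IsLineBundle)

include hN in
theorem map_ordIdeal₁ (s₁ : N.N₁) :
    (ordIdeal₁ N s₁).map 𝔹.r₁.toRingHom = ordIdeal₁₂ N (N.ι₁ s₁) := by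
  apply le_antisymm
  · rw [Ideal.map_le_iff_le_comap]
    rintro b ⟨l, rfl⟩
    exact ⟨homι₁ N (Ten.unit 𝔹) l, homι₁_apply N (Ten.unit 𝔹) l s₁⟩
  · rintro y ⟨μ, rfl⟩
    obtain ⟨l, m, hμ⟩ := (lbDual N hN).surj₁ μ
    have hval : μ (N.ι₁ s₁) = 𝔹.r₂ 𝔹.g ^ m * 𝔹.r₁ (l s₁) := by
      rw [hμ]
      exact congrArg (fun z => 𝔹.r₂ 𝔹.g ^ m * z) (homι₁_apply N (Ten.unit 𝔹) l s₁)
    change μ (N.ι₁ s₁) ∈ _
    rw [hval]
    exact Ideal.mul_mem_left _ _ (Ideal.mem_map_of_mem _ ⟨l, rfl⟩)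

include hN in
theorem map_ordIdeal₂ (s₂ : N.N₂) :
    (ordIdeal₂ N s₂).map 𝔹.r₂.toRingHom = ordIdeal₁₂ N (N.ι₂ s₂) := by
  apply le_antisymm
  · rw [Ideal.map_le_iff_le_comap]
    rintro b ⟨l, rfl⟩
    exact ⟨homι₂ N (Ten.unit 𝔹) l, homι₂_apply N (Ten.unit 𝔹) l s₂⟩
  · rintro y ⟨μ, rfl⟩
    obtain ⟨l, m, hμ⟩ := (lbDual N hN).surj₂ μ
    have hval : μ (N.ι₂ s₂) = 𝔹.r₁ 𝔹.f ^ m * 𝔹.r₂ (l s₂) := by
      rw [hμ]
      exact congrArg (fun z => 𝔹.r₁ 𝔹.f ^ m * z) (homι₂_apply N (Ten.unit 𝔹) l s₂)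
    change μ (N.ι₂ s₂) ∈ _
    rw [hval]
    exact Ideal.mul_mem_left _ _ (Ideal.mem_map_of_mem _ ⟨l, rfl⟩)

include hN in
theorem map_ordIdeal_eq (s : N.N₁ × N.N₂) (hs : N.ι₁ s.1 = N.ι₂ s.2) :
    (ordIdeal₁ N s.1).map 𝔹.r₁.toRingHom = (ordIdeal₂ N s.2).map 𝔹.r₂.toRingHom := by
  rw [map_ordIdeal₁ N hN, map_ordIdeal₂ N hN, hs]

set_option backward.isDefEq.respectTransparency false in
/-- Evaluation at a global section: `lbDual N → ofIdeals (ord s)`. -/
noncomputable def evalHom (s : N.N₁ × N.N₂) (hs : N.ι₁ s.1 = N.ι₂ s.2) :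
    GluedModule.Hom (lbDual N hN)
      (ofIdeals 𝔹 (ordIdeal₁ N s.1) (ordIdeal₂ N s.2) (map_ordIdeal_eq N hN s hs)) where
  φ₁ := (LinearMap.applyₗ (R := 𝔹.B₁) (M₂ := 𝔹.B₁) s.1).rangeRestrict
  φ₂ := (LinearMap.applyₗ (R := 𝔹.B₂) (M₂ := 𝔹.B₂) s.2).rangeRestrict
  φ₁₂ := LinearMap.codRestrict _ (LinearMap.applyₗ (R := 𝔹.B₁₂) (M₂ := 𝔹.B₁₂) (N.ι₁ s.1))
    (fun μ => by
      rw [map_ordIdeal₁ N hN]
      exact ⟨μ, rfl⟩)
  comm₁ := fun l => Subtype.ext (homι₁_apply N (Ten.unit 𝔹) l s.1)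
  comm₂ := fun l => Subtype.ext (by
    change (homι₂ N (Ten.unit 𝔹) l) (N.ι₁ s.1) = _
    rw [hs]
    exact homι₂_apply N (Ten.unit 𝔹) l s.2)

/-- **Embedding.**  The dual of a line bundle with a nonzero section is a nonzero ideal datum. -/
theorem exists_lbDual_iso_ofIdeals [IsDomain 𝔹.B₁] [IsDomain 𝔹.B₂] (s : N.N₁ × N.N₂)
    (hs : N.ι₁ s.1 = N.ι₂ s.2) (h₁ : s.1 ≠ 0) (h₂ : s.2 ≠ 0) :
    ∃ (a₁ : Ideal 𝔹.B₁) (a₂ : Ideal 𝔹.B₂)
      (h : a₁.map 𝔹.r₁.toRingHom = a₂.map 𝔹.r₂.toRingHom),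
      a₁ ≠ ⊥ ∧ a₂ ≠ ⊥ ∧ Nonempty (Iso (lbDual N hN) (ofIdeals 𝔹 a₁ a₂ h)) := by
  have := hN.inv₁
  have := hN.inv₂
  refine ⟨ordIdeal₁ N s.1, ordIdeal₂ N s.2, map_ordIdeal_eq N hN s hs, ?_, ?_, ?_⟩
  · obtain ⟨l, hl⟩ := exists_dual_apply_ne_zero (B := 𝔹.B₁) h₁
    intro hbot
    have : l s.1 ∈ ordIdeal₁ N s.1 := ⟨l, rfl⟩
    rw [hbot] at this
    exact hl this
  · obtain ⟨l, hl⟩ := exists_dual_apply_ne_zero (B := 𝔹.B₂) h₂
    intro hbot
    have : l s.2 ∈ ordIdeal₂ N s.2 := ⟨l, rfl⟩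
    rw [hbot] at this
    exact hl this
  · refine nonempty_iso_of_bijective (evalHom N hN s hs) ⟨?_, ?_⟩ ⟨?_, ?_⟩
    · intro l l' h
      exact dual_apply_injective (B := 𝔹.B₁) h₁ (congrArg Subtype.val h)
    · exact LinearMap.surjective_rangeRestrict _
    · intro l l' h
      exact dual_apply_injective (B := 𝔹.B₂) h₂ (congrArg Subtype.val h)
    · exact LinearMap.surjective_rangeRestrict _

end Embed

end Fermat.Agent.S25.TWIST.G6.H7525
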