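/-
S25 (Jacobian), package A0 core: a domain which is locally standard smooth of relative
dimension one over an algebraically closed field is a Dedekind domain.
Author: helper7525.
-/
import Mathlib

set_option autoImplicit false

universe u

open TensorProduct KaehlerDifferential IsLocalRing

namespace Fermat.Agent.S25.TWIST.G6.H7525

section Nullstellensatz

variable {κ : Type u} [Field κ] [IsAlgClosed κ] {A : Type u} [CommRing A] [Algebra κ A]

/-- Nullstellensatz: the residue field at a maximal ideal of a finitely generated algebra over an
algebraically closed field is the base field. -/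
theorem bijective_algebraMap_quotient_of_isMaximal [Algebra.FiniteType κ A] (m : Ideal A)
    [m.IsMaximal] : Function.Bijective (algebraMap κ (A ⧸ m)) := by
  let := Ideal.Quotient.field m
  have : Module.Finite κ (A ⧸ m) := finite_of_finite_type_of_isJacobsonRing κ (A ⧸ m)
  exact IsAlgClosed.algebraMap_bijective_of_isIntegral

/-- The residue field of the localisation at a maximal ideal is the base field. -/
theorem bijective_algebraMap_residueField_of_isMaximal [Algebra.FiniteType κ A] (m : Ideal A)
    [m.IsMaximal] :
    Function.Bijective (algebraMap κ (ResidueField (Localization.AtPrime m))) := by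
  have h1 := bijective_algebraMap_quotient_of_isMaximal (κ := κ) m
  have h2 := m.bijective_algebraMap_quotient_residueField
  have : algebraMap κ (ResidueField (Localization.AtPrime m)) =
      (algebraMap (A ⧸ m) m.ResidueField).comp (algebraMap κ (A ⧸ m)) :=
    IsScalarTower.algebraMap_eq κ (A ⧸ m) m.ResidueField
  rw [this]
  exact h2.comp h1

end Nullstellensatz

section Cotangent

variable {κ : Type u} [Field κ] {P : Type u} [CommRing P] [Algebra κ P] [IsLocalRing P]

/-- Transport of cotangent modules along an equality of ideals. -/
theorem nonempty_cotangent_equiv_of_eq {R : Type u} [CommRing R] (I J : Ideal R) (h : I = J) :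
    Nonempty (I.Cotangent ≃ₗ[R] J.Cotangent) := by
  subst h
  exact ⟨LinearEquiv.refl _ _⟩

/-- For a local `κ`-algebra `P`, formally smooth over `κ`, with residue field `κ`, the
cotangent space `𝔪/𝔪²` is isomorphic to `K ⊗ Ω[P/κ]`. -/
theorem nonempty_cotangentSpace_equiv [Algebra.FormallySmooth κ P]
    (hK : Function.Bijective (algebraMap κ (ResidueField P))) :
    Nonempty (CotangentSpace P ≃ₗ[ResidueField P] ResidueField P ⊗[P] Ω[P⁄κ]) := by
  have hsurj : Function.Surjective (algebraMap P (ResidueField P)) := IsLocalRing.residue_surjective
  have : Algebra.FormallySmooth κ (ResidueField P) :=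
    .of_equiv (AlgEquiv.ofBijective (Algebra.ofId κ (ResidueField P)) hK)
  obtain ⟨l, hl⟩ := (Algebra.FormallySmooth.iff_split_injection (R := κ) (P := P)
    (A := ResidueField P) hsurj).mp inferInstance
  have hinj : Function.Injective (kerCotangentToTensor κ P (ResidueField P)) := by
    intro x y h
    have := congrArg l h
    rwa [← LinearMap.comp_apply, ← LinearMap.comp_apply, hl] at this
  have hex := KaehlerDifferential.exact_kerCotangentToTensor_mapBaseChange κ P (ResidueField P) hsurj
  have : Subsingleton Ω[ResidueField P⁄κ] :=
    KaehlerDifferential.subsingleton_of_surjective κ (ResidueField P) hK.surjective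
  have hsurj' : Function.Surjective (kerCotangentToTensor κ P (ResidueField P)) := by
    intro y
    obtain ⟨x, hx⟩ := (hex y).mp (Subsingleton.elim _ _)
    exact ⟨x, hx⟩
  obtain ⟨e₀⟩ := nonempty_cotangent_equiv_of_eq (maximalIdeal P)
    (RingHom.ker (algebraMap P (ResidueField P))) (IsLocalRing.ker_residue (R := P)).symm
  let e : CotangentSpace P ≃ₗ[P] ResidueField P ⊗[P] Ω[P⁄κ] :=
    e₀.trans (LinearEquiv.ofBijective _ ⟨hinj, hsurj'⟩)
  exact ⟨e.extendScalarsOfSurjective hsurj⟩

end Cotangent

section Rank

variable {κ : Type u} [Field κ] {A : Type u} [CommRing A] [Algebra κ A]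

/-- `Ω` of the localisation at a prime of an algebra which is locally standard smooth of relative
dimension one is free of rank one. -/
theorem free_finrank_kaehler_localization_atPrime
    (h : RingHom.Locally (RingHom.IsStandardSmoothOfRelativeDimension 1) (algebraMap κ A))
    (m : Ideal A) [m.IsPrime] :
    Module.Free (Localization.AtPrime m) Ω[Localization.AtPrime m⁄κ] ∧
      Module.finrank (Localization.AtPrime m) Ω[Localization.AtPrime m⁄κ] = 1 := by
  obtain ⟨s, hs, hP⟩ := h
  obtain ⟨f, hfs, hfm⟩ : ∃ f ∈ s, f ∉ m := by
    by_contra hcon
    push Not at hcon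
    have : Ideal.span s ≤ m := Ideal.span_le.mpr hcon
    rw [hs] at this
    exact (Ideal.IsPrime.ne_top ‹_›) (top_le_iff.mp this)
  have hstd : Algebra.IsStandardSmoothOfRelativeDimension 1 κ (Localization.Away f) := by
    have := hP f hfs
    rw [← IsScalarTower.algebraMap_eq κ A (Localization.Away f)] at this
    exact (RingHom.isStandardSmoothOfRelativeDimension_algebraMap 1).mp this
  have hunit : IsUnit (algebraMap A (Localization.AtPrime m) f) :=
    IsLocalization.map_units (Localization.AtPrime m) (⟨f, hfm⟩ : m.primeCompl)
  let φ : Localization.Away f →+* Localization.AtPrime m := IsLocalization.Away.lift f hunit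
  let : Algebra (Localization.Away f) (Localization.AtPrime m) := φ.toAlgebra
  have hφ : φ.comp (algebraMap A (Localization.Away f)) = algebraMap A (Localization.AtPrime m) :=
    IsLocalization.Away.lift_comp f hunit
  have : IsScalarTower A (Localization.Away f) (Localization.AtPrime m) :=
    IsScalarTower.of_algebraMap_eq' hφ.symm
  have : IsScalarTower κ (Localization.Away f) (Localization.AtPrime m) :=
    IsScalarTower.of_algebraMap_eq' (by
      rw [IsScalarTower.algebraMap_eq κ A (Localization.AtPrime m),
        IsScalarTower.algebraMap_eq κ A (Localization.Away f), ← RingHom.comp_assoc]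
      exact congrArg (fun g => RingHom.comp g (algebraMap κ A)) hφ.symm)
  have hle : Submonoid.powers f ≤ m.primeCompl := by
    rintro _ ⟨n, rfl⟩
    exact fun hmem => hfm (Ideal.IsPrime.mem_of_pow_mem ‹_› n hmem)
  have : IsLocalization (Submonoid.map (algebraMap A (Localization.Away f)) m.primeCompl)
      (Localization.AtPrime m) :=
    IsLocalization.isLocalization_of_submonoid_le (Localization.Away f) (Localization.AtPrime m)
      (Submonoid.powers f) m.primeCompl hle
  have : Algebra.FormallyEtale (Localization.Away f) (Localization.AtPrime m) :=
    Algebra.FormallyEtale.of_isLocalization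
      (M := Submonoid.map (algebraMap A (Localization.Away f)) m.primeCompl)
  have : Nontrivial (Localization.Away f) :=
    RingHom.domain_nontrivial (algebraMap (Localization.Away f) (Localization.AtPrime m))
  have : Algebra.IsStandardSmooth κ (Localization.Away f) :=
    Algebra.IsStandardSmoothOfRelativeDimension.isStandardSmooth 1
  let e := KaehlerDifferential.tensorKaehlerEquivOfFormallyEtale κ (Localization.Away f)
    (Localization.AtPrime m)
  have hrank : Module.finrank (Localization.Away f) Ω[Localization.Away f⁄κ] = 1 := by
    have := Algebra.IsStandardSmoothOfRelativeDimension.rank_kaehlerDifferential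
      (R := κ) (S := Localization.Away f) 1
    rw [Module.finrank, this]
    simp
  refine ⟨Module.Free.of_equiv e, ?_⟩
  rw [← e.finrank_eq, Module.finrank_baseChange, hrank]

end Rank

section Main

variable {κ : Type u} [Field κ] {A : Type u} [CommRing A] [Algebra κ A]

/-- Locally standard smooth of relative dimension one implies smooth. -/
theorem smooth_of_locally_isStandardSmoothOfRelativeDimension {n : ℕ}
    (h : RingHom.Locally (RingHom.IsStandardSmoothOfRelativeDimension n) (algebraMap κ A)) :
    Algebra.Smooth κ A := by
  rw [← RingHom.smooth_algebraMap, RingHom.smooth_iff_locally_isStandardSmooth]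
  obtain ⟨s, hs, hP⟩ := h
  exact ⟨s, hs, fun t ht => (hP t ht).isStandardSmooth⟩

variable [IsAlgClosed κ]

/-- The local rings at maximal ideals of a smooth curve over an algebraically closed field are
discrete valuation rings. -/
theorem isDiscreteValuationRing_localization_of_isMaximal [IsDomain A]
    (h : RingHom.Locally (RingHom.IsStandardSmoothOfRelativeDimension 1) (algebraMap κ A))
    (m : Ideal A) [m.IsMaximal] : IsDiscreteValuationRing (Localization.AtPrime m) := by
  have hsm : Algebra.Smooth κ A := smooth_of_locally_isStandardSmoothOfRelativeDimension h
  have : IsNoetherianRing A := Algebra.FiniteType.isNoetherianRing κ A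
  have : IsNoetherianRing (Localization.AtPrime m) :=
    IsLocalization.isNoetherianRing m.primeCompl _ inferInstance
  have : IsDomain (Localization.AtPrime m) :=
    IsLocalization.isDomain_localization m.primeCompl_le_nonZeroDivisors
  have : Algebra.FormallySmooth κ (Localization.AtPrime m) :=
    Algebra.FormallySmooth.comp κ A (Localization.AtPrime m)
  obtain ⟨e⟩ := nonempty_cotangentSpace_equiv (κ := κ) (P := Localization.AtPrime m)
    (bijective_algebraMap_residueField_of_isMaximal m)
  obtain ⟨hfree, hrank⟩ := free_finrank_kaehler_localization_atPrime h m
  rw [← IsLocalRing.finrank_CotangentSpace_eq_one_iff, e.finrank_eq, Module.finrank_baseChange,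
    hrank]

/-- **A0 core.** A domain which is locally standard smooth of relative dimension one over an
algebraically closed field is a Dedekind domain. -/
theorem isDedekindDomain_of_locally_isStandardSmoothOfRelativeDimension_one [IsDomain A]
    (h : RingHom.Locally (RingHom.IsStandardSmoothOfRelativeDimension 1) (algebraMap κ A)) :
    IsDedekindDomain A := by
  have hsm : Algebra.Smooth κ A := smooth_of_locally_isStandardSmoothOfRelativeDimension h
  have hnoeth : IsNoetherianRing A := Algebra.FiniteType.isNoetherianRing κ A
  have : IsDedekindDomainDvr A := by
    refine { toIsNoetherian := hnoeth, is_dvr_at_nonzero_prime := ?_ }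
    intro P hP0 hPprime
    obtain ⟨m, hm, hPm⟩ := Ideal.exists_le_maximal P hPprime.ne_top
    have hdvr := isDiscreteValuationRing_localization_of_isMaximal h m
    have hdisj : Disjoint (m.primeCompl : Set A) (P : Set A) := by
      rw [Set.disjoint_left]
      intro x hx hxP
      exact hx (hPm hxP)
    have hprime : (P.map (algebraMap A (Localization.AtPrime m))).IsPrime :=
      IsLocalization.isPrime_of_isPrime_disjoint m.primeCompl _ P hPprime hdisj
    have hne : P.map (algebraMap A (Localization.AtPrime m)) ≠ ⊥ := by
      intro hbot
      apply hP0
      rw [eq_bot_iff]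
      intro x hx
      have : algebraMap A (Localization.AtPrime m) x = 0 := by
        have := Ideal.mem_map_of_mem (algebraMap A (Localization.AtPrime m)) hx
        rwa [hbot, Ideal.mem_bot] at this
      have hinj := IsLocalization.injective (Localization.AtPrime m)
        m.primeCompl_le_nonZeroDivisors
      exact (Ideal.mem_bot).mpr (hinj (by rw [this, map_zero]))
    have hmax : (P.map (algebraMap A (Localization.AtPrime m))).IsMaximal :=
      Ring.DimensionLEOne.maximalOfPrime hne hprime
    have heq : P.map (algebraMap A (Localization.AtPrime m)) =
        m.map (algebraMap A (Localization.AtPrime m)) := by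
      rw [Localization.AtPrime.map_eq_maximalIdeal]
      exact IsLocalRing.eq_maximalIdeal hmax
    have hPm' : P = m := by
      have h1 := IsLocalization.under_map_of_isPrime_disjoint m.primeCompl
        (Localization.AtPrime m) hPprime hdisj
      have hdisj' : Disjoint (m.primeCompl : Set A) (m : Set A) := by
        rw [Set.disjoint_left]
        intro x hx hxm
        exact hx hxm
      have h2 := IsLocalization.under_map_of_isPrime_disjoint m.primeCompl
        (Localization.AtPrime m) hm.isPrime hdisj'
      rw [← h1, heq, h2]
    subst hPm'
    exact hdvr
  exact IsDedekindDomainDvr.isDedekindDomain A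

end Main

end Fermat.Agent.S25.TWIST.G6.H7525
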