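/-
S25 (Jacobian), package A0: the tensor product of a finitely generated domain over an
algebraically closed field with any domain is a domain; points of finitely generated algebras
over an algebraically closed field.
Author: helper7525.
-/
import Mathlib

set_option autoImplicit false

universe u

open TensorProduct

namespace Fermat.Agent.S25.TWIST.G6.H7525

section Points

variable {k : Type u} [Field k] [IsAlgClosed k] {A : Type u} [CommRing A] [Algebra k A]

/-- Nullstellensatz: every maximal ideal of a finitely generated algebra over an algebraically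
closed field is the kernel of a `k`-point. -/
theorem exists_algHom_ker_eq_of_isMaximal [Algebra.FiniteType k A] (m : Ideal A) [m.IsMaximal] :
    ∃ φ : A →ₐ[k] k, RingHom.ker φ = m := by
  let := Ideal.Quotient.field m
  have : Module.Finite k (A ⧸ m) := finite_of_finite_type_of_isJacobsonRing k (A ⧸ m)
  have hbij : Function.Bijective (algebraMap k (A ⧸ m)) :=
    IsAlgClosed.algebraMap_bijective_of_isIntegral
  let e : k ≃ₐ[k] A ⧸ m := AlgEquiv.ofBijective (Algebra.ofId k (A ⧸ m)) hbij
  refine ⟨(e.symm : A ⧸ m →ₐ[k] k).comp (Ideal.Quotient.mkₐ k m), ?_⟩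
  ext a
  simp [RingHom.mem_ker, Ideal.Quotient.eq_zero_iff_mem]

omit [IsAlgClosed k] in
/-- The kernel of a `k`-point is a maximal ideal. -/
theorem isMaximal_ker_algHom (φ : A →ₐ[k] k) : (RingHom.ker φ).IsMaximal :=
  RingHom.ker_isMaximal_of_surjective (φ : A →+* k) fun c => ⟨algebraMap k A c, by simp⟩

/-- In a finitely generated reduced algebra over an algebraically closed field, an element
vanishing at all `k`-points is zero. -/
theorem eq_zero_of_forall_algHom_eq_zero [Algebra.FiniteType k A] [IsReduced A] (a : A)
    (h : ∀ φ : A →ₐ[k] k, φ a = 0) : a = 0 := by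
  have hJ : IsJacobsonRing A := isJacobsonRing_of_finiteType (A := k) (B := A)
  have h1 : (⊥ : Ideal A).jacobson = ⊥ := by
    have hrad : (⊥ : Ideal A).IsRadical := by
      rw [← Ideal.radical_eq_iff]
      exact nilradical_eq_zero A
    exact IsJacobsonRing.out hJ hrad
  have h2 : a ∈ (⊥ : Ideal A).jacobson := by
    rw [Ideal.jacobson, Ideal.mem_sInf]
    rintro m ⟨-, hm⟩
    obtain ⟨φ, hφ⟩ := exists_algHom_ker_eq_of_isMaximal (k := k) m
    rw [← hφ]
    exact h φ
  rw [h1] at h2
  exact h2

end Points

section Domain

variable {k : Type u} [Field k] {A : Type u} [CommRing A] [Algebra k A]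
  {B : Type u} [CommRing B] [Algebra k B]

/-- Evaluation at a `k`-point of the first factor: `A ⊗ B → B`. -/
noncomputable def evalPoint (φ : A →ₐ[k] k) : A ⊗[k] B →ₐ[k] B :=
  Algebra.TensorProduct.lift ((Algebra.ofId k B).comp φ) (AlgHom.id k B)
    (fun _ _ => Commute.all _ _)

@[simp]
theorem evalPoint_tmul (φ : A →ₐ[k] k) (a : A) (b : B) :
    evalPoint φ (a ⊗ₜ[k] b) = φ a • b := by
  simp [evalPoint, Algebra.smul_def]

/-- Coordinates of `evalPoint φ x` in a basis of `B` are the values at `φ` of the coordinates
of `x` in the induced `A`-basis of `A ⊗ B`. -/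
theorem repr_evalPoint {ι : Type*} (β : Module.Basis ι k B) (φ : A →ₐ[k] k) (x : A ⊗[k] B)
    (i : ι) :
    β.repr (evalPoint φ x) i = φ ((Algebra.TensorProduct.basis A β).repr x i) := by
  induction x using TensorProduct.induction_on with
  | zero => simp
  | tmul a b =>
    simp [Algebra.TensorProduct.basis_repr_tmul]
  | add x y hx hy =>
    simp [hx, hy]

variable [IsAlgClosed k]

/-- **Domain lemma.** Over an algebraically closed field, the tensor product of a finitely
generated domain with an arbitrary domain is a domain. -/
theorem isDomain_tensorProduct_of_finiteType [Algebra.FiniteType k A] [IsDomain A] [IsDomain B] :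
    IsDomain (A ⊗[k] B) := by
  have : Nontrivial (A ⊗[k] B) :=
    Algebra.TensorProduct.nontrivial_of_algebraMap_injective_of_isDomain k A B
      (FaithfulSMul.algebraMap_injective k A) (FaithfulSMul.algebraMap_injective k B)
  have : NoZeroDivisors (A ⊗[k] B) := by
    refine ⟨fun {x y} hxy => ?_⟩
    by_contra hcon
    push Not at hcon
    obtain ⟨hx, hy⟩ := hcon
    let β := Module.Basis.ofVectorSpace k B
    let 𝔟 := Algebra.TensorProduct.basis A β
    obtain ⟨i, hi⟩ : ∃ i, 𝔟.repr x i ≠ 0 := by
      by_contra hall
      push Not at hall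
      exact hx (𝔟.repr.map_eq_zero_iff.mp (Finsupp.ext hall))
    obtain ⟨j, hj⟩ : ∃ j, 𝔟.repr y j ≠ 0 := by
      by_contra hall
      push Not at hall
      exact hy (𝔟.repr.map_eq_zero_iff.mp (Finsupp.ext hall))
    have hne : 𝔟.repr x i * 𝔟.repr y j ≠ 0 := mul_ne_zero hi hj
    apply hne
    apply eq_zero_of_forall_algHom_eq_zero (k := k)
    intro φ
    have h0 : evalPoint φ x * evalPoint φ y = (0 : B) := by
      rw [← map_mul, hxy, map_zero]
    rw [map_mul]
    rcases mul_eq_zero.mp h0 with h | h
    · have := repr_evalPoint β φ x i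
      rw [h] at this
      simp only [map_zero, Finsupp.coe_zero, Pi.zero_apply] at this
      rw [← this, zero_mul]
    · have := repr_evalPoint β φ y j
      rw [h] at this
      simp only [map_zero, Finsupp.coe_zero, Pi.zero_apply] at this
      rw [← this, mul_zero]
  exact NoZeroDivisors.to_isDomain _

/-- The domain lemma with the finitely generated factor on the right. -/
theorem isDomain_tensorProduct_of_finiteType' [Algebra.FiniteType k A] [IsDomain A]
    [IsDomain B] : IsDomain (B ⊗[k] A) := by
  have := isDomain_tensorProduct_of_finiteType (k := k) (A := A) (B := B)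
  exact (Algebra.TensorProduct.comm k B A).toMulEquiv.isDomain _

end Domain

end Fermat.Agent.S25.TWIST.G6.H7525
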