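/-
S25 package TWIST, leaf G6, piece 1 (helper7525): the chart rings `κ ⊗[k] A_i` of a `CurveData`
over an algebraically closed field `κ ⊇ k` are finitely generated Dedekind domains; nonzero ideals
of a Dedekind domain are invertible modules.
-/
import Fermat.Agent.S25.TWIST.Defs
import Fermat.Agent.S25.TWIST.G6.H7525.Domain
import Fermat.Agent.S25.TWIST.G6.H7525.Dedekind

set_option autoImplicit false

universe u

namespace Fermat.Agent.S25.TWIST.G6.H7525

open Fermat.Agent.S25

open scoped TensorProduct

/-! ### Nonzero ideals of a Dedekind domain are invertible modules -/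

section DedekindInv

variable {B : Type u} [CommRing B] [IsDedekindDomain B]

theorem invertible_of_ne_bot (I : Ideal B) (hI : I ≠ ⊥) : Module.Invertible B I := by
  let K := FractionRing B
  have hI' : (I : FractionalIdeal (nonZeroDivisors B) K) ≠ 0 :=
    FractionalIdeal.coeIdeal_ne_zero.mpr hI
  have hmul : (I : FractionalIdeal (nonZeroDivisors B) K) *
      (I : FractionalIdeal (nonZeroDivisors B) K)⁻¹ = 1 := mul_inv_cancel₀ hI'
  have hunit : IsUnit ((I : FractionalIdeal (nonZeroDivisors B) K) : Submodule B K) := by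
    refine IsUnit.of_mul_eq_one
      (((I : FractionalIdeal (nonZeroDivisors B) K)⁻¹ : FractionalIdeal (nonZeroDivisors B) K) :
        Submodule B K) ?_
    rw [← FractionalIdeal.coe_mul, hmul, FractionalIdeal.coe_one]
  have hinv : Module.Invertible B
      (((I : FractionalIdeal (nonZeroDivisors B) K) : Submodule B K)) :=
    inferInstanceAs (Module.Invertible B (hunit.unit : Submodule B K))
  have hco : ((I : FractionalIdeal (nonZeroDivisors B) K) : Submodule B K) =
      Submodule.map (Algebra.linearMap B K) I := by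
    rw [FractionalIdeal.coe_coeIdeal]
    rfl
  have e : I ≃ₗ[B] Submodule.map (Algebra.linearMap B K) I :=
    Submodule.equivMapOfInjective (Algebra.linearMap B K)
      (IsFractionRing.injective B K) I
  exact Module.Invertible.congr ((LinearEquiv.ofEq _ _ hco).trans e.symm)

end DedekindInv

/-! ### The chart rings over an algebraically closed field -/

section Chart

variable {k : Type u} [Field k] (𝒞 : CurveData k)

theorem finiteType_A₁ : Algebra.FiniteType k 𝒞.A₁ := by
  have : Algebra.Smooth k 𝒞.A₁ := smooth_of_locally_isStandardSmoothOfRelativeDimension 𝒞.smooth₁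
  infer_instance

theorem finiteType_A₂ : Algebra.FiniteType k 𝒞.A₂ := by
  have : Algebra.Smooth k 𝒞.A₂ := smooth_of_locally_isStandardSmoothOfRelativeDimension 𝒞.smooth₂
  infer_instance

variable (κ : Type u) [Field κ] [Algebra k κ]

theorem finiteType_B₁ : Algebra.FiniteType κ (𝒞.chart κ).B₁ := by
  have := finiteType_A₁ 𝒞
  exact inferInstanceAs (Algebra.FiniteType κ (κ ⊗[k] 𝒞.A₁))

theorem finiteType_B₂ : Algebra.FiniteType κ (𝒞.chart κ).B₂ := by
  have := finiteType_A₂ 𝒞
  exact inferInstanceAs (Algebra.FiniteType κ (κ ⊗[k] 𝒞.A₂))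

theorem locally_smooth_B₁ :
    RingHom.Locally (RingHom.IsStandardSmoothOfRelativeDimension 1)
      (algebraMap κ (𝒞.chart κ).B₁) :=
  (RingHom.locally_isStableUnderBaseChange
    RingHom.isStandardSmoothOfRelativeDimension_respectsIso
    (RingHom.isStandardSmoothOfRelativeDimension_isStableUnderBaseChange 1)).tensorProduct
      κ 𝒞.smooth₁

theorem locally_smooth_B₂ :
    RingHom.Locally (RingHom.IsStandardSmoothOfRelativeDimension 1)
      (algebraMap κ (𝒞.chart κ).B₂) :=
  (RingHom.locally_isStableUnderBaseChange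
    RingHom.isStandardSmoothOfRelativeDimension_respectsIso
    (RingHom.isStandardSmoothOfRelativeDimension_isStableUnderBaseChange 1)).tensorProduct
      κ 𝒞.smooth₂

variable [IsAlgClosed k]

theorem isDomain_B₁ : IsDomain (𝒞.chart κ).B₁ := by
  have := 𝒞.dom₁
  have := finiteType_A₁ 𝒞
  exact isDomain_tensorProduct_of_finiteType' (k := k) (A := 𝒞.A₁) (B := κ)

theorem isDomain_B₂ : IsDomain (𝒞.chart κ).B₂ := by
  have := 𝒞.dom₂
  have := finiteType_A₂ 𝒞
  exact isDomain_tensorProduct_of_finiteType' (k := k) (A := 𝒞.A₂) (B := κ)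

variable [IsAlgClosed κ]

theorem isDedekindDomain_B₁ : IsDedekindDomain (𝒞.chart κ).B₁ := by
  have := isDomain_B₁ 𝒞 κ
  exact isDedekindDomain_of_locally_isStandardSmoothOfRelativeDimension_one
    (locally_smooth_B₁ 𝒞 κ)

theorem isDedekindDomain_B₂ : IsDedekindDomain (𝒞.chart κ).B₂ := by
  have := isDomain_B₂ 𝒞 κ
  exact isDedekindDomain_of_locally_isStandardSmoothOfRelativeDimension_one
    (locally_smooth_B₂ 𝒞 κ)

end Chart

end Fermat.Agent.S25.TWIST.G6.H7525
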