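/-
S25 package TWIST, leaf G6, piece 2 (helper7525): Nullstellensatz for the chart rings
`κ ⊗[k] A_i` over an algebraically closed field `κ`: every maximal ideal is the kernel of the
evaluation `pointEval_i 𝒞 x` at a point `x : A_i →ₐ[k] κ`.
-/
import Fermat.Agent.S25.TWIST.G6.H7525.Curve

set_option autoImplicit false

universe u

namespace Fermat.Agent.S25.TWIST.G6.H7525

open Fermat.Agent.S25

open scoped TensorProduct

section Generic

variable {k : Type u} [Field k] {κ : Type u} [Field κ] [Algebra k κ]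
  {A : Type u} [CommRing A] [Algebra k A]

/-- A `κ`-point of `κ ⊗[k] A` is the evaluation at the `k`-point `A → κ` it restricts to. -/
theorem lift_restrict_eq (φ : κ ⊗[k] A →ₐ[κ] κ) :
    Algebra.TensorProduct.lift (AlgHom.id κ κ)
      ((φ.restrictScalars k).comp (Algebra.TensorProduct.includeRight : A →ₐ[k] κ ⊗[k] A))
      (fun _ _ => Commute.all _ _) = φ := by
  apply Algebra.TensorProduct.ext'
  intro c a
  rw [Algebra.TensorProduct.lift_tmul]
  have h : (c ⊗ₜ[k] a : κ ⊗[k] A) = c • ((1 : κ) ⊗ₜ[k] a) := by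
    rw [TensorProduct.smul_tmul', smul_eq_mul, mul_one]
  rw [h, map_smul, smul_eq_mul]
  rfl

variable [IsAlgClosed κ] [Algebra.FiniteType κ (κ ⊗[k] A)]

theorem exists_lift_ker_eq (𝔪 : Ideal (κ ⊗[k] A)) [𝔪.IsMaximal] :
    ∃ x : A →ₐ[k] κ, RingHom.ker (Algebra.TensorProduct.lift (AlgHom.id κ κ) x
      (fun _ _ => Commute.all _ _)).toRingHom = 𝔪 := by
  obtain ⟨φ, hφ⟩ := exists_algHom_ker_eq_of_isMaximal (k := κ) (A := κ ⊗[k] A) 𝔪
  refine ⟨(φ.restrictScalars k).comp (Algebra.TensorProduct.includeRight : A →ₐ[k] κ ⊗[k] A), ?_⟩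
  rw [lift_restrict_eq φ]
  exact hφ

end Generic

section Chart

variable {k : Type u} [Field k] (𝒞 : CurveData k) (κ : Type u) [Field κ] [Algebra k κ]
  [IsAlgClosed κ]

/-- Every maximal ideal of the first chart ring over `κ` is a point ideal. -/
theorem exists_point₁ (𝔪 : Ideal (𝒞.chart κ).B₁) [h𝔪 : 𝔪.IsMaximal] :
    ∃ x : 𝒞.A₁ →ₐ[k] κ, RingHom.ker (pointEval₁ 𝒞 x).toRingHom = 𝔪 := by
  have := finiteType_B₁ 𝒞 κ
  exact @exists_lift_ker_eq k _ κ _ _ 𝒞.A₁ _ _ _ this 𝔪 h𝔪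

/-- Every maximal ideal of the second chart ring over `κ` is a point ideal. -/
theorem exists_point₂ (𝔪 : Ideal (𝒞.chart κ).B₂) [h𝔪 : 𝔪.IsMaximal] :
    ∃ x : 𝒞.A₂ →ₐ[k] κ, RingHom.ker (pointEval₂ 𝒞 x).toRingHom = 𝔪 := by
  have := finiteType_B₂ 𝒞 κ
  exact @exists_lift_ker_eq k _ κ _ _ 𝒞.A₂ _ _ _ this 𝔪 h𝔪

end Chart

end Fermat.Agent.S25.TWIST.G6.H7525
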