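/-
S25 package TWIST, leaf G6, piece 6 (helper7525): factorisation of an ideal datum on the curve
over an algebraically closed field into point ideal sheaves.

* `peel₁`, `peel₂` (abstract two-chart with Dedekind chart rings): an ideal datum `(a₁, a₂)`
  contained in a chart ideal `I` is `(b₁, b₂) ⊗ (closure of V(I))` with `(b₁, b₂) > (a₁, a₂)`;
* `IsPt` : classes in `Pic` of the point ideal sheaves `Γ₁ 𝒞 x`, `Γ₂ 𝒞 x`;
* `exists_factorization` : the class of every nonzero ideal datum is a finite product of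
  classes of point ideal sheaves (Noetherian induction + Nullstellensatz).
-/
import Fermat.Agent.S25.Lib.Curve.Basic
import Fermat.Agent.S25.TWIST.G1
import Fermat.Agent.S25.TWIST.G6.H7525.Points
import Fermat.Agent.S25.TWIST.G6.H7525.Embed

set_option autoImplicit false
set_option linter.style.haveILetI false

universe u

namespace Fermat.Agent.S25.TWIST.G6.H7525

open Fermat.Agent.S25 GluedModule Ten

open scoped TensorProduct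

/-! ### Invertible modules over a domain -/

section Inv

variable {B : Type*} [CommRing B] {M : Type*} [AddCommGroup M] [Module B M]

/-- Invertible modules over a domain are torsion free. -/
theorem inv_smul_eq_zero [IsDomain B] [Module.Invertible B M] {b : B} (hb : b ≠ 0) {n : M}
    (h : b • n = 0) : n = 0 := by
  obtain ⟨S, hS⟩ := inv_exists_partition (B := B) (M := M)
  rw [← inv_expand hS n]
  refine Finset.sum_eq_zero fun p _ => ?_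
  have h0 : b * p.1 n = 0 := by rw [← smul_eq_mul, ← map_smul, h, map_zero]
  rw [(mul_eq_zero.mp h0).resolve_left hb, zero_smul]

/-- An ideal which is an invertible module is nonzero. -/
theorem ne_bot_of_invertible [Nontrivial B] (I : Ideal B) (h : Module.Invertible B I) :
    I ≠ ⊥ := by
  rintro rfl
  obtain ⟨S, hS⟩ := inv_exists_partition (B := B) (M := (⊥ : Ideal B))
  have h0 : ∑ p ∈ S, p.1 p.2 = 0 := Finset.sum_eq_zero fun p _ => by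
    have hp : p.2 = 0 := Subtype.ext ((Submodule.mem_bot B).mp p.2.2)
    rw [hp, map_zero]
  rw [h0] at hS
  exact zero_ne_one hS

end Inv

/-! ### Peeling a chart ideal off an ideal datum -/

section Abstract

variable {R : Type u} [CommRing R] {𝔹 : TwoChart R}

/-- Sections of a line bundle on a two-chart with domain charts: a nonzero section is nonzero
on both charts. -/
theorem section_ne_zero [IsDomain 𝔹.B₁] [IsDomain 𝔹.B₂] [Nontrivial 𝔹.B₁₂]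
    {N : GluedModule 𝔹} (hN : N.IsLineBundle) (s : N.N₁ × N.N₂) (hs : N.ι₁ s.1 = N.ι₂ s.2)
    (h0 : s ≠ 0) : s.1 ≠ 0 ∧ s.2 ≠ 0 := by
  have hf : 𝔹.f ≠ 0 := by
    intro h
    have h1 := 𝔹.fg
    rw [h, map_zero, zero_mul] at h1
    exact zero_ne_one h1
  have hg : 𝔹.g ≠ 0 := by
    intro h
    have h1 := 𝔹.fg
    rw [h, map_zero, mul_zero] at h1
    exact zero_ne_one h1
  haveI := hN.inv₁
  haveI := hN.inv₂
  have inj₁ : ∀ n : N.N₁, N.ι₁ n = 0 → n = 0 := fun n hn => by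
    obtain ⟨m, hm⟩ := N.ker₁ n hn
    exact inv_smul_eq_zero (pow_ne_zero m hf) hm
  have inj₂ : ∀ n : N.N₂, N.ι₂ n = 0 → n = 0 := fun n hn => by
    obtain ⟨m, hm⟩ := N.ker₂ n hn
    exact inv_smul_eq_zero (pow_ne_zero m hg) hm
  constructor
  · intro h1
    apply h0
    have h2 : s.2 = 0 := inj₂ _ (by rw [← hs, h1, map_zero])
    exact Prod.ext h1 h2
  · intro h2
    apply h0
    have h1 : s.1 = 0 := inj₁ _ (by rw [hs, h2, map_zero])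
    exact Prod.ext h1 h2

variable [IsDedekindDomain 𝔹.B₁] [IsDedekindDomain 𝔹.B₂]

/-- Nonzero ideal data on Dedekind charts are line bundles. -/
theorem isLineBundle_ofIdeals {a₁ : Ideal 𝔹.B₁} {a₂ : Ideal 𝔹.B₂}
    (h : a₁.map 𝔹.r₁.toRingHom = a₂.map 𝔹.r₂.toRingHom) (h₁ : a₁ ≠ ⊥) (h₂ : a₂ ≠ ⊥) :
    (ofIdeals 𝔹 a₁ a₂ h).IsLineBundle :=
  ⟨invertible_of_ne_bot a₁ h₁, invertible_of_ne_bot a₂ h₂⟩

variable [IsDedekindDomain 𝔹.B₁₂]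

/-- Peel the closure of `V(I)`, `I` an ideal of the first chart, off an ideal datum. -/
theorem peel₁ (inj₁ : Function.Injective 𝔹.r₁) {a₁ : Ideal 𝔹.B₁} {a₂ : Ideal 𝔹.B₂}
    (h : a₁.map 𝔹.r₁.toRingHom = a₂.map 𝔹.r₂.toRingHom) (h₁ : a₁ ≠ ⊥) (h₂ : a₂ ≠ ⊥)
    (I : Ideal 𝔹.B₁) (hI' : I ≠ ⊤) (hle : a₁ ≤ I) (hP : (ofIdeal₁ 𝔹 I).IsLineBundle) :
    ∃ (b₁ : Ideal 𝔹.B₁) (b₂ : Ideal 𝔹.B₂)
      (hb : b₁.map 𝔹.r₁.toRingHom = b₂.map 𝔹.r₂.toRingHom) (hb₁ : b₁ ≠ ⊥) (hb₂ : b₂ ≠ ⊥),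
      a₁ < b₁ ∧ a₂ ≤ b₂ ∧
      Pic.mk (ofIdeals 𝔹 a₁ a₂ h) (isLineBundle_ofIdeals h h₁ h₂) =
        Pic.mk (ofIdeals 𝔹 b₁ b₂ hb) (isLineBundle_ofIdeals hb hb₁ hb₂) *
          Pic.mk (ofIdeal₁ 𝔹 I) hP := by
  have hI : I ≠ ⊥ := ne_bot_of_invertible I hP.inv₁
  have hI₂ : I.map 𝔹.r₁.toRingHom =
      ((I.map 𝔹.r₁.toRingHom).comap 𝔹.r₂.toRingHom).map 𝔹.r₂.toRingHom := map_comap_map₂ 𝔹 I
  have hImap : I.map 𝔹.r₁.toRingHom ≠ ⊥ := fun h0 =>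
    hI ((Ideal.map_eq_bot_iff_of_injective (f := 𝔹.r₁.toRingHom) inj₁).mp h0)
  have hle₂ : a₂ ≤ (I.map 𝔹.r₁.toRingHom).comap 𝔹.r₂.toRingHom :=
    Ideal.le_comap_of_map_le (h ▸ Ideal.map_mono hle)
  obtain ⟨b₁, rfl⟩ := Ideal.dvd_iff_le.mpr hle
  obtain ⟨b₂, rfl⟩ := Ideal.dvd_iff_le.mpr hle₂
  have hb : b₁.map 𝔹.r₁.toRingHom = b₂.map 𝔹.r₂.toRingHom := by
    have h' := h
    rw [Ideal.map_mul, Ideal.map_mul, ← hI₂] at h'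
    exact mul_left_cancel₀ hImap h'
  have hb₁ : b₁ ≠ ⊥ := fun h0 => h₁ (by rw [h0, Ideal.mul_bot])
  have hb₂ : b₂ ≠ ⊥ := fun h0 => h₂ (by rw [h0, Ideal.mul_bot])
  refine ⟨b₁, b₂, hb, hb₁, hb₂, ?_, Ideal.mul_le_right, ?_⟩
  · refine lt_of_le_of_ne Ideal.mul_le_right ?_
    intro heq
    apply hI'
    have h1 : I * b₁ = 1 * b₁ := by rw [one_mul]; exact heq
    rw [← Ideal.one_eq_top]
    exact mul_right_cancel₀ hb₁ h1
  · rw [Pic.mk_mul_mk, Pic.mk_eq_mk_iff]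
    haveI : Module.Invertible 𝔹.B₁ I := hP.inv₁
    haveI : Module.Invertible 𝔹.B₂ ((I.map 𝔹.r₁.toRingHom).comap 𝔹.r₂.toRingHom) := hP.inv₂
    obtain ⟨e⟩ := tensor_ofIdeals_iso b₁ I b₂ _ hb hI₂
    obtain ⟨e'⟩ := ofIdeals_iso_of_eq (map_mul_eq b₁ I b₂ _ hb hI₂) h (mul_comm b₁ I)
      (mul_comm b₂ _)
    exact ⟨(e.trans e').symm⟩

/-- Peel the closure of `V(J)`, `J` an ideal of the second chart, off an ideal datum. -/
theorem peel₂ (inj₂ : Function.Injective 𝔹.r₂) {a₁ : Ideal 𝔹.B₁} {a₂ : Ideal 𝔹.B₂}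
    (h : a₁.map 𝔹.r₁.toRingHom = a₂.map 𝔹.r₂.toRingHom) (h₁ : a₁ ≠ ⊥) (h₂ : a₂ ≠ ⊥)
    (J : Ideal 𝔹.B₂) (hJ' : J ≠ ⊤) (hle : a₂ ≤ J) (hP : (ofIdeal₂ 𝔹 J).IsLineBundle) :
    ∃ (b₁ : Ideal 𝔹.B₁) (b₂ : Ideal 𝔹.B₂)
      (hb : b₁.map 𝔹.r₁.toRingHom = b₂.map 𝔹.r₂.toRingHom) (hb₁ : b₁ ≠ ⊥) (hb₂ : b₂ ≠ ⊥),
      a₁ ≤ b₁ ∧ a₂ < b₂ ∧
      Pic.mk (ofIdeals 𝔹 a₁ a₂ h) (isLineBundle_ofIdeals h h₁ h₂) =
        Pic.mk (ofIdeals 𝔹 b₁ b₂ hb) (isLineBundle_ofIdeals hb hb₁ hb₂) *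
          Pic.mk (ofIdeal₂ 𝔹 J) hP := by
  have hJ : J ≠ ⊥ := ne_bot_of_invertible J hP.inv₂
  have hJ₁ : ((J.map 𝔹.r₂.toRingHom).comap 𝔹.r₁.toRingHom).map 𝔹.r₁.toRingHom =
      J.map 𝔹.r₂.toRingHom := map_comap_map₁ 𝔹 J
  have hJmap : J.map 𝔹.r₂.toRingHom ≠ ⊥ := fun h0 =>
    hJ ((Ideal.map_eq_bot_iff_of_injective (f := 𝔹.r₂.toRingHom) inj₂).mp h0)
  have hle₁ : a₁ ≤ (J.map 𝔹.r₂.toRingHom).comap 𝔹.r₁.toRingHom :=
    Ideal.le_comap_of_map_le (h ▸ Ideal.map_mono hle)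
  obtain ⟨b₂, rfl⟩ := Ideal.dvd_iff_le.mpr hle
  obtain ⟨b₁, rfl⟩ := Ideal.dvd_iff_le.mpr hle₁
  have hb : b₁.map 𝔹.r₁.toRingHom = b₂.map 𝔹.r₂.toRingHom := by
    have h' := h
    rw [Ideal.map_mul, Ideal.map_mul, hJ₁] at h'
    exact mul_left_cancel₀ hJmap h'
  have hb₁ : b₁ ≠ ⊥ := fun h0 => h₁ (by rw [h0, Ideal.mul_bot])
  have hb₂ : b₂ ≠ ⊥ := fun h0 => h₂ (by rw [h0, Ideal.mul_bot])
  refine ⟨b₁, b₂, hb, hb₁, hb₂, Ideal.mul_le_right, ?_, ?_⟩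
  · refine lt_of_le_of_ne Ideal.mul_le_right ?_
    intro heq
    apply hJ'
    have h1 : J * b₂ = 1 * b₂ := by rw [one_mul]; exact heq
    rw [← Ideal.one_eq_top]
    exact mul_right_cancel₀ hb₂ h1
  · rw [Pic.mk_mul_mk, Pic.mk_eq_mk_iff]
    haveI : Module.Invertible 𝔹.B₁ ((J.map 𝔹.r₂.toRingHom).comap 𝔹.r₁.toRingHom) := hP.inv₁
    haveI : Module.Invertible 𝔹.B₂ J := hP.inv₂
    obtain ⟨e⟩ := tensor_ofIdeals_iso b₁ _ b₂ J hb hJ₁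
    obtain ⟨e'⟩ := ofIdeals_iso_of_eq (map_mul_eq b₁ _ b₂ J hb hJ₁) h (mul_comm b₁ _)
      (mul_comm b₂ J)
    exact ⟨(e.trans e').symm⟩

end Abstract

/-! ### Factorisation into points on the curve -/

section Chart

variable {k : Type u} [Field k] (𝒞 : CurveData k) [IsAlgClosed k] (κ : Type u) [Field κ]
  [IsAlgClosed κ] [Algebra k κ]

/-- The classes of the point ideal sheaves in the Picard group. -/
def IsPt (p : Pic (𝒞.chart κ)) : Prop :=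
  (∃ x : 𝒞.A₁ →ₐ[k] κ, p = Pic.mk (Γ₁ 𝒞 x) (Γ₁_isLineBundle 𝒞 x)) ∨
    (∃ x : 𝒞.A₂ →ₐ[k] κ, p = Pic.mk (Γ₂ 𝒞 x) (Γ₂_isLineBundle 𝒞 x))

theorem ofIdeals_chart_isLineBundle {a₁ : Ideal (𝒞.chart κ).B₁} {a₂ : Ideal (𝒞.chart κ).B₂}
    (h : a₁.map (𝒞.chart κ).r₁.toRingHom = a₂.map (𝒞.chart κ).r₂.toRingHom)
    (h₁ : a₁ ≠ ⊥) (h₂ : a₂ ≠ ⊥) : (ofIdeals (𝒞.chart κ) a₁ a₂ h).IsLineBundle :=
  haveI := isDedekindDomain_B₁ 𝒞 κ
  haveI := isDedekindDomain_B₂ 𝒞 κ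
  isLineBundle_ofIdeals h h₁ h₂

/-- The class of a nonzero ideal datum is a product of classes of point ideal sheaves. -/
theorem exists_factorization :
    ∀ (a : Ideal (𝒞.chart κ).B₁ × Ideal (𝒞.chart κ).B₂)
      (h : a.1.map (𝒞.chart κ).r₁.toRingHom = a.2.map (𝒞.chart κ).r₂.toRingHom)
      (h₁ : a.1 ≠ ⊥) (h₂ : a.2 ≠ ⊥),
      ∃ l : List (Pic (𝒞.chart κ)), (∀ p ∈ l, IsPt 𝒞 κ p) ∧
        Pic.mk (ofIdeals (𝒞.chart κ) a.1 a.2 h) (ofIdeals_chart_isLineBundle 𝒞 κ h h₁ h₂) =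
          l.prod := by
  haveI := isDedekindDomain_B₁ 𝒞 κ
  haveI := isDedekindDomain_B₂ 𝒞 κ
  haveI := Lib.Curve.chart_isDedekindDomain₁₂ 𝒞 κ
  intro a
  induction a using WellFoundedGT.induction with
  | _ a ih =>
  obtain ⟨a₁, a₂⟩ := a
  intro h h₁ h₂
  by_cases ht₁ : a₁ = ⊤
  · by_cases ht₂ : a₂ = ⊤
    · subst ht₁ ht₂
      refine ⟨[], by simp, ?_⟩
      rw [List.prod_nil, Pic.one_def, Pic.mk_eq_mk_iff]
      exact ofIdeals_top_iso_unit h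
    · obtain ⟨𝔫, h𝔫, hle⟩ := Ideal.exists_le_maximal a₂ ht₂
      obtain ⟨x, rfl⟩ := exists_point₂ 𝒞 κ 𝔫
      obtain ⟨b₁, b₂, hb, hb₁, hb₂, hlt₁, hlt₂, hpic⟩ :=
        peel₂ (Lib.Curve.chart_r₂_injective 𝒞 κ) h h₁ h₂ _ h𝔫.ne_top hle (Γ₂_isLineBundle 𝒞 x)
      obtain ⟨l, hl, hprod⟩ := ih (b₁, b₂) (Prod.mk_lt_mk.mpr (Or.inr ⟨hlt₁, hlt₂⟩)) hb hb₁ hb₂
      refine ⟨l ++ [Pic.mk (Γ₂ 𝒞 x) (Γ₂_isLineBundle 𝒞 x)], ?_, ?_⟩
      · intro p hp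
        rcases List.mem_append.mp hp with hp | hp
        · exact hl p hp
        · rw [List.mem_singleton] at hp
          exact Or.inr ⟨x, hp⟩
      · rw [List.prod_append, List.prod_singleton, ← hprod]
        exact hpic
  · obtain ⟨𝔪, h𝔪, hle⟩ := Ideal.exists_le_maximal a₁ ht₁
    obtain ⟨x, rfl⟩ := exists_point₁ 𝒞 κ 𝔪
    obtain ⟨b₁, b₂, hb, hb₁, hb₂, hlt₁, hlt₂, hpic⟩ :=
      peel₁ (Lib.Curve.chart_r₁_injective 𝒞 κ) h h₁ h₂ _ h𝔪.ne_top hle (Γ₁_isLineBundle 𝒞 x)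
    obtain ⟨l, hl, hprod⟩ := ih (b₁, b₂) (Prod.mk_lt_mk.mpr (Or.inl ⟨hlt₁, hlt₂⟩)) hb hb₁ hb₂
    refine ⟨l ++ [Pic.mk (Γ₁ 𝒞 x) (Γ₁_isLineBundle 𝒞 x)], ?_, ?_⟩
    · intro p hp
      rcases List.mem_append.mp hp with hp | hp
      · exact hl p hp
      · rw [List.mem_singleton] at hp
        exact Or.inl ⟨x, hp⟩
    · rw [List.prod_append, List.prod_singleton, ← hprod]
      exact hpic

end Chart

end Fermat.Agent.S25.TWIST.G6.H7525
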