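/-
S25 package TWIST, leaf G6, piece 5 (helper7525; port of helper6648's `ATLAS/TW/GENUS.lean`,
namespace renamed): `h¹(O)` does not depend on the field.

For every field `K/k`, `H¹(O_K) = coker (K ⊗ d₀) ≅ K ⊗[k] coker d₀`, with
`d₀ : A₁ × A₂ → A₁₂` the Čech differential without any tensor (right exactness of `K ⊗ -`).
-/
import Fermat.Agent.S25.TWIST.Defs

set_option autoImplicit false
set_option linter.unusedSectionVars false

universe u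

namespace Fermat.Agent.S25.TWIST.G6.H7525

open Fermat.Agent.S25

open scoped TensorProduct

open GluedModule

variable {k : Type u} [Field k] (𝒞 : CurveData k)

/-- The Čech differential of the structure sheaf over `k`, `A₁ × A₂ → A₁₂`. -/
def d₀ : (𝒞.A₁ × 𝒞.A₂) →ₗ[k] 𝒞.A₁₂ :=
  𝒞.r₁.toLinearMap.comp (LinearMap.fst k 𝒞.A₁ 𝒞.A₂) -
    𝒞.r₂.toLinearMap.comp (LinearMap.snd k 𝒞.A₁ 𝒞.A₂)

theorem d₀_apply (x : 𝒞.A₁ × 𝒞.A₂) : d₀ 𝒞 x = 𝒞.r₁ x.1 - 𝒞.r₂ x.2 := rfl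

variable (K : Type u) [Field K] [Algebra k K]

/-- The Čech differential of `O` over `K`, with its domain and codomain spelled out. -/
noncomputable def dK : ((K ⊗[k] 𝒞.A₁) × (K ⊗[k] 𝒞.A₂)) →ₗ[K] K ⊗[k] 𝒞.A₁₂ :=
  (GluedModule.unit (𝒞.chart K)).d

theorem dK_apply (x : (K ⊗[k] 𝒞.A₁) × (K ⊗[k] 𝒞.A₂)) :
    dK 𝒞 K x = Algebra.TensorProduct.map (AlgHom.id K K) 𝒞.r₁ x.1 -
      Algebra.TensorProduct.map (AlgHom.id K K) 𝒞.r₂ x.2 :=
  rfl

/-- The Čech differential of `O` over `K` is `K ⊗ d₀`, up to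
`K ⊗ (A₁ × A₂) = (K ⊗ A₁) × (K ⊗ A₂)`. -/
theorem lTensor_d₀ (z : K ⊗[k] (𝒞.A₁ × 𝒞.A₂)) :
    LinearMap.lTensor K (d₀ 𝒞) z = dK 𝒞 K (TensorProduct.prodRight k K K 𝒞.A₁ 𝒞.A₂ z) := by
  induction z using TensorProduct.induction_on with
  | zero => simp only [map_zero]
  | tmul c a =>
    rw [LinearMap.lTensor_tmul, TensorProduct.prodRight_tmul, dK_apply, d₀_apply,
      TensorProduct.tmul_sub, Algebra.TensorProduct.map_tmul, Algebra.TensorProduct.map_tmul]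
    rfl
  | add x y hx hy => simp only [map_add, hx, hy]

theorem range_lTensor_d₀ (y : K ⊗[k] 𝒞.A₁₂) :
    y ∈ LinearMap.range (LinearMap.lTensor K (d₀ 𝒞)) ↔ y ∈ LinearMap.range (dK 𝒞 K) := by
  constructor
  · rintro ⟨z, rfl⟩
    exact ⟨_, (lTensor_d₀ 𝒞 K z).symm⟩
  · rintro ⟨w, rfl⟩
    refine ⟨(TensorProduct.prodRight k K K 𝒞.A₁ 𝒞.A₂).symm w, ?_⟩
    rw [lTensor_d₀, LinearEquiv.apply_symm_apply]

/-- `h¹(O_K) = dim_k coker d₀` for every field `K/k`. -/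
theorem finrank_H1_unit_eq :
    Module.finrank K (GluedModule.unit (𝒞.chart K)).H1 =
      Module.finrank k (𝒞.A₁₂ ⧸ LinearMap.range (d₀ 𝒞)) := by
  have hex : Function.Exact (d₀ 𝒞) (LinearMap.range (d₀ 𝒞)).mkQ :=
    LinearMap.exact_map_mkQ_range (d₀ 𝒞)
  have hsurj : Function.Surjective (LinearMap.range (d₀ 𝒞)).mkQ := Submodule.mkQ_surjective _
  have hexK := lTensor_exact K hex hsurj
  let P : K ⊗[k] 𝒞.A₁₂ →ₗ[K] K ⊗[k] (𝒞.A₁₂ ⧸ LinearMap.range (d₀ 𝒞)) :=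
    LinearMap.baseChange K (LinearMap.range (d₀ 𝒞)).mkQ
  have hPeq : ∀ y, P y = LinearMap.lTensor K (LinearMap.range (d₀ 𝒞)).mkQ y := fun y => rfl
  have hP : Function.Surjective P := fun w => by
    obtain ⟨y, hy⟩ := LinearMap.lTensor_surjective K hsurj w
    exact ⟨y, by rw [hPeq, hy]⟩
  have hker : LinearMap.ker P = LinearMap.range (dK 𝒞 K) := by
    ext y
    rw [LinearMap.mem_ker, hPeq, hexK y]
    exact range_lTensor_d₀ 𝒞 K y
  have e : ((K ⊗[k] 𝒞.A₁₂) ⧸ LinearMap.range (dK 𝒞 K)) ≃ₗ[K]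
      K ⊗[k] (𝒞.A₁₂ ⧸ LinearMap.range (d₀ 𝒞)) :=
    (Submodule.quotEquivOfEq _ _ hker.symm).trans (P.quotKerEquivOfSurjective hP)
  have h2 := e.finrank_eq
  rw [Module.finrank_baseChange] at h2
  exact h2

/-- `h¹(O_K)` is the genus, for every field `K/k`. -/
theorem finrank_H1_unit_eq_genus :
    Module.finrank K (GluedModule.unit (𝒞.chart K)).H1 = genus 𝒞 := by
  rw [finrank_H1_unit_eq 𝒞 K]
  exact (finrank_H1_unit_eq 𝒞 k).symm

end Fermat.Agent.S25.TWIST.G6.H7525
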